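import Fermat.Agent.MUL.Orig.L.Degen.CoresPar
import Fermat.Prelude.Def_CuspForm_Newforms
import Fermat.Prelude.Def_CuspForm_HeckeGaloisRepDatum
import Fermat.Agent.MUL.Orig.L.Degen.Wreath2

/-!
# S35 (cluster T), interface Props between the work packages  (owner: helper36)

* `NewVectorAt N q` (WP C, helper23): for a newform `g` of level `N * q` every eigenvector of the
  eigen-character of `g` in `O ⊗ Hom_par(Γ₀(N q), ℤ)` is killed by the two corestrictions
  `coresPar`, `coresParD : Hom_par(Γ₀(N q)) → Hom_par(Γ₀(N))` of cluster L.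
-/

set_option autoImplicit false

noncomputable section

namespace Fermat.Agent.S35

open CongruenceSubgroup ModularCurve.Period Fermat.Agent.F3EC
open scoped TensorProduct

/-- **WP C.**  `g` a newform of level `N * q` (no condition on `q` besides `NeZero`): every
vector `x ∈ O ⊗ Hom_par(Γ₀(N q), ℤ)` on which `T_ℓ` acts by `ι (a_ℓ(g))` for all primes
`ℓ ∉ S`, `ℓ ∤ N q`, is killed by `coresPar` and by `coresParD`. -/
def NewVectorAt (N q : ℕ) [NeZero N] [NeZero q] : Prop :=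
  ∀ (g : CuspForm (Gamma0 (N * q)) 2), g.IsNewform →
    ∀ (S : Finset ℕ), (∀ r : ℕ, r.Prime → r ∣ N * q → r ∈ S) →
      ∀ (O : Type) [CommRing O] [IsDomain O] [CharZero O]
        (chig : CuspForm.heckeAlgebra (N * q) 2 (↑S : Set ℕ) →+* ℂ),
        (∀ (ℓ : ℕ) (hℓ : ℓ.Prime) (hℓM : ¬ ℓ ∣ N * q) (hℓS : ℓ ∉ (↑S : Set ℕ)),
          chig (CuspForm.heckeAlgebra.T hℓ hℓM hℓS) = ModularFormClass.qCoeff g ℓ) →
        ∀ (iota : chig.range →+* O) (x : O ⊗[ℤ] HomPar (N * q)),
          (∀ (ℓ : ℕ) (hℓ : ℓ.Prime) (hℓM : ¬ ℓ ∣ N * q) (hℓS : ℓ ∉ (↑S : Set ℕ)),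
            (heckeHom (N * q) ⟨ℓ, hℓ⟩).baseChange O x =
              (iota.comp chig.rangeRestrict) (CuspForm.heckeAlgebra.T hℓ hℓM hℓS) • x) →
          (Fermat.Agent.LDeg.coresPar N q).baseChange O x = 0 ∧
            (Fermat.Agent.LDeg.coresParD N q).baseChange O x = 0

end Fermat.Agent.S35
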